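/-
S28: the interface `BasisData` between the CORE (any route) and the valuation layer [V]
(helper28).  It is K-free and does not ask the basis elements to lie in `F`.

`BasisData N ℓ` : there are `n` integral q-series `y i ∈ ℤ((q))` which
  (B1) are integral over `ℤ_(ℓ)[j]`,
  (B2) span (a space containing) `F = modularFunctionFieldFull N` over `ℚ(j)`
       -- polynomial form, denominators cleared,
  (B3) have reductions mod `ℓ` independent over `𝔽_ℓ[j̄]` -- polynomial form.
Route (a) (prime level + tower, `CoreData`) produces it with monomials in the `j(q^d)`;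
route (d) (single modular unit `u`, irreducibility criterion) with `y i = u ^ i`.
-/
import Mathlib
import Fermat.Agent.S28.Defs

set_option autoImplicit false
open ModularCurve
noncomputable section

namespace Fermat.Agent.S28

/-- The CORE output consumed by the valuation layer [V]. -/
structure BasisData (N : ℕ) [NeZero N] (ℓ : ℕ) [Fact ℓ.Prime] : Prop where
  exists_basis : ∃ (n : ℕ) (y : Fin n → LaurentSeries ℤ),
    -- (B1) each `y i` is a root of a polynomial in `X` over `ℤ[j]` whose leading
    -- coefficient is a constant `c` prime to `ℓ`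
    (∀ i, ∃ (c : ℕ) (P : Polynomial (Polynomial ℤ)), ¬ ℓ ∣ c ∧
        P.leadingCoeff = Polynomial.C (c : ℤ) ∧
        P.eval₂ (evalAt (jqModC ℤ)) (y i) = 0) ∧
    -- (B2) span over `ℚ(j)`, denominators cleared
    (∀ x ∈ modularFunctionFieldFull N, ∃ (g : Polynomial ℤ) (f : Fin n → Polynomial ℤ),
        g ≠ 0 ∧ evalAt (jqModC ℚ) g * x =
          ∑ i, evalAt (jqModC ℚ) (f i) * coeffMap (Int.castRingHom ℚ) (y i)) ∧
    -- (B3) independence mod `ℓ` over `𝔽_ℓ[j̄]`
    (∀ f : Fin n → Polynomial (ZMod ℓ),
        ∑ i, Polynomial.aeval (jqModC (ZMod ℓ)) (f i) *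
          coeffMap (Int.castRingHom (ZMod ℓ)) (y i) = 0 → ∀ i, f i = 0)

end Fermat.Agent.S28
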