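/-
S28 integration spine (helper28).  Uses the pieces already on main
  [W] `Fermat.Agent.S28.H928.isIntegral_pullback_of_charts`   (helper928)
  [T] `Fermat.Agent.S28.H746.isDomain_tensor_of_qExp`          (helper746)
and reduces the frozen statement S28 to the K-free statement `ChartReductions N ℓ`:
ring homs `ρ_S : chartAlg S → 𝔽_ℓ((q))` whose kernel lies in `ℓ · chartAlg S`.
-/
import Mathlib
import Fermat.Prelude.Def_ModularCurve_IgusaScheme
import Fermat.Agent.S28.H928.Wrapper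
import Fermat.Agent.S28.H746.Tensor

set_option autoImplicit false
open AlgebraicGeometry CategoryTheory CategoryTheory.Limits ModularCurve ModularCurve.IgusaScheme
open TensorProduct
noncomputable section

namespace Fermat.Agent.S28

/-- The K-free statement to which S28 is reduced by [W] + [T]. -/
structure ChartReductions (N : ℕ) [NeZero N] (ℓ : ℕ) [Fact ℓ.Prime] : Prop where
  fin : ∃ ρ : chartAlgFin N ℓ →+* LaurentSeries (ZMod ℓ),
    ∀ x : chartAlgFin N ℓ, ρ x = 0 → ∃ y : chartAlgFin N ℓ, x = ((ℓ : ℕ) : chartAlgFin N ℓ) * y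
  inf : ∃ ρ : chartAlgInf N ℓ →+* LaurentSeries (ZMod ℓ),
    ∀ x : chartAlgInf N ℓ, ρ x = 0 → ∃ y : chartAlgInf N ℓ, x = ((ℓ : ℕ) : chartAlgInf N ℓ) * y
  mid : Nonempty (chartAlgMid N ℓ →+* LaurentSeries (ZMod ℓ))

/-- S28 from `ChartReductions`. -/
theorem isIntegral_of_chartReductions (N : ℕ) [NeZero N] (ℓ : ℕ) [Fact ℓ.Prime]
    (h : ChartReductions N ℓ)
    (K : Type) [Field K] [CharP K ℓ] [Algebra ↥(GaloisRep.ratLocalizedAt ℓ) K] :
    IsIntegral ↑(pullback (igusaTo N ℓ)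
      (Spec.map (CommRingCat.ofHom (algebraMap ↥(GaloisRep.ratLocalizedAt ℓ) K)))) := by
  obtain ⟨ρf, hf⟩ := h.fin
  obtain ⟨ρi, hi⟩ := h.inf
  obtain ⟨ρm⟩ := h.mid
  exact H928.isIntegral_pullback_of_charts N ℓ K
    (H746.isDomain_tensor_of_qExp ℓ ρf K hf)
    (H746.isDomain_tensor_of_qExp ℓ ρi K hi)
    (H746.nontrivial_tensor_of_qExp ℓ ρm K)

end Fermat.Agent.S28
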