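/-
S28 helper (helper865): abstract integrality lemma (c).

If `P` is an integrally closed domain, `ℓ ∈ P` is prime, `s ∈ P` is not divisible by `ℓ`, and
both `ℓ • a` and `s • a` are integral over `P`, then `a` is integral over `P`.
-/
import Mathlib

set_option autoImplicit false

noncomputable section

namespace Fermat.Agent.S28.H865

open Polynomial

/-- A monic polynomial all of whose coefficients are suitably divisible is a `scaleRoots`. -/
theorem exists_monic_scaleRoots_eq {P : Type*} [CommRing P] [IsDomain P] {ν : P[X]}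
    (hν : ν.Monic) {ℓ : P} (h : ∀ i, ℓ ^ (ν.natDegree - i) ∣ ν.coeff i) :
    ∃ μ : P[X], μ.Monic ∧ μ.scaleRoots ℓ = ν := by
  classical
  choose c hc using h
  set m := ν.natDegree with hm
  by_cases hℓ : ℓ = 0
  · -- then all lower coefficients vanish, `ν = X ^ m`
    refine ⟨ν, hν, ?_⟩
    ext i
    rw [coeff_scaleRoots]
    rcases lt_trichotomy i m with hi | hi | hi
    · have h0 : ν.coeff i = 0 := by
        rw [hc i, hℓ, zero_pow (by omega), zero_mul]
      rw [h0, zero_mul]
    · rw [hi, ← hm, Nat.sub_self, pow_zero, mul_one]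
    · rw [coeff_eq_zero_of_natDegree_lt (by omega), zero_mul]
  set μ : P[X] := ∑ i ∈ Finset.range (m + 1), monomial i (c i) with hμ
  have hμcoeff : ∀ i, μ.coeff i = if i ≤ m then c i else 0 := by
    intro i
    rw [hμ, finsetSum_coeff]
    simp only [coeff_monomial]
    rw [Finset.sum_ite_eq' (Finset.range (m + 1)) i]
    simp
  have hcm : c m = 1 := by
    have h1 := hc m
    rw [Nat.sub_self, pow_zero, one_mul] at h1
    rw [← h1]
    exact hν.coeff_natDegree
  have hμdeg : μ.natDegree ≤ m := by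
    rw [hμ]
    refine natDegree_sum_le_of_forall_le _ _ fun i hi => ?_
    exact (natDegree_monomial_le _).trans (Nat.lt_succ_iff.mp (Finset.mem_range.mp hi))
  have hμmonic : μ.Monic := by
    refine monic_of_natDegree_le_of_coeff_eq_one m hμdeg ?_
    rw [hμcoeff, if_pos le_rfl, hcm]
  have hμdeg' : μ.natDegree = m := by
    refine le_antisymm hμdeg ?_
    refine le_natDegree_of_ne_zero ?_
    rw [hμcoeff, if_pos le_rfl, hcm]
    exact one_ne_zero
  refine ⟨μ, hμmonic, ?_⟩
  ext i
  rw [coeff_scaleRoots, hμdeg', hμcoeff]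
  by_cases hi : i ≤ m
  · rw [if_pos hi, hc i, mul_comm]
  · rw [if_neg hi, zero_mul, coeff_eq_zero_of_natDegree_lt (by omega)]

/-- **Abstract integrality lemma.** -/
theorem isIntegral_of_smul_of_smul {P F : Type*} [CommRing P] [IsDomain P]
    [IsIntegrallyClosed P] [CommRing F] [IsDomain F] [Algebra P F] [FaithfulSMul P F]
    {ℓ s : P} (hℓ : Prime ℓ) (hs : ¬ ℓ ∣ s) {a : F}
    (h1 : IsIntegral P (ℓ • a)) (h2 : IsIntegral P (s • a)) : IsIntegral P a := by
  have hs0 : s ≠ 0 := fun h => hs (h ▸ dvd_zero ℓ)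
  have hℓ0 : ℓ ≠ 0 := hℓ.ne_zero
  have key : (minpoly P (ℓ • a)).scaleRoots s = (minpoly P (s • a)).scaleRoots ℓ := by
    rw [← IsIntegrallyClosed.minpoly_smul hs0 h1, ← IsIntegrallyClosed.minpoly_smul hℓ0 h2,
      smul_smul, smul_smul, mul_comm]
  have hdeg : (minpoly P (ℓ • a)).natDegree = (minpoly P (s • a)).natDegree := by
    have := congrArg Polynomial.natDegree key
    simpa [Polynomial.natDegree_scaleRoots] using this
  have hcoeff : ∀ i, ℓ ^ ((minpoly P (ℓ • a)).natDegree - i) ∣ (minpoly P (ℓ • a)).coeff i := by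
    intro i
    have h3 := congrArg (fun p => Polynomial.coeff p i) key
    simp only [Polynomial.coeff_scaleRoots] at h3
    rw [← hdeg] at h3
    refine hℓ.pow_dvd_of_dvd_mul_right (b := s ^ ((minpoly P (ℓ • a)).natDegree - i)) _
      (fun h => hs (hℓ.dvd_of_dvd_pow h)) ?_
    rw [h3]
    exact dvd_mul_left _ _
  obtain ⟨μ, hμ, hμν⟩ := exists_monic_scaleRoots_eq (minpoly.monic h1) hcoeff
  refine ⟨μ, hμ, ?_⟩
  have h4 : Polynomial.eval₂ (algebraMap P F) (algebraMap P F ℓ * a) (μ.scaleRoots ℓ) = 0 := by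
    rw [hμν, ← Algebra.smul_def, ← Polynomial.aeval_def]
    exact minpoly.aeval P _
  rw [Polynomial.scaleRoots_eval₂_mul] at h4
  have h5 : (algebraMap P F ℓ) ^ μ.natDegree ≠ 0 :=
    pow_ne_zero _ (by
      rw [Ne, FaithfulSMul.algebraMap_eq_zero_iff]
      exact hℓ0)
  exact (mul_eq_zero.mp h4).resolve_left h5

end Fermat.Agent.S28.H865
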