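/-
S28 helper (helper865): the TENSOR STEP (T).

If `A` is a `ℤ_(ℓ)`-algebra together with a ring homomorphism `ρ : A →+* 𝔽_ℓ((q))` whose kernel is
contained in `ℓ A`, then for every field `K` of characteristic `ℓ` the ring `A ⊗[ℤ_(ℓ)] K`
embeds into `K((q))`; in particular it is a domain.
-/
import Mathlib
import Fermat.Prelude.Def_GaloisRep_Flat
import Fermat.Prelude.Def_ModularCurve_LaurentCoeff

set_option autoImplicit false

noncomputable section

open scoped TensorProduct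

namespace Fermat.Agent.S28.H865

section RingHomExt

variable {ℓ : ℕ}

/-- The natural number `x.den` is invertible in `ℤ_(ℓ)`. -/
theorem isUnit_den_ratLocalizedAt (x : ↥(GaloisRep.ratLocalizedAt ℓ)) :
    IsUnit ((x.1.den : ℕ) : ↥(GaloisRep.ratLocalizedAt ℓ)) := by
  have hmem : ((x.1.den : ℚ))⁻¹ ∈ GaloisRep.ratLocalizedAt ℓ := by
    show (((x.1.den : ℚ))⁻¹).den.Coprime ℓ
    rw [Rat.inv_natCast_den_of_pos x.1.den_pos]
    exact x.2
  refine IsUnit.of_mul_eq_one ⟨((x.1.den : ℚ))⁻¹, hmem⟩ (Subtype.ext ?_)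
  have hd : ((x.1.den : ℕ) : ℚ) ≠ 0 := by exact_mod_cast x.1.den_ne_zero
  simp [hd]

theorem den_mul_self_ratLocalizedAt (x : ↥(GaloisRep.ratLocalizedAt ℓ)) :
    ((x.1.den : ℕ) : ↥(GaloisRep.ratLocalizedAt ℓ)) * x = ((x.1.num : ℤ) : ↥(GaloisRep.ratLocalizedAt ℓ)) := by
  apply Subtype.ext
  push_cast
  rw [mul_comm]
  exact Rat.mul_den_eq_num x.1

/-- Ring homomorphisms out of `ℤ_(ℓ)` are unique. -/
theorem ratLocalizedAt_ringHom_ext {S : Type*} [Ring S]
    (f g : ↥(GaloisRep.ratLocalizedAt ℓ) →+* S) : f = g := by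
  ext x
  have hu : IsUnit (f ((x.1.den : ℕ) : ↥(GaloisRep.ratLocalizedAt ℓ))) :=
    (isUnit_den_ratLocalizedAt x).map f
  have h1 : f ((x.1.den : ℕ) : ↥(GaloisRep.ratLocalizedAt ℓ)) * f x =
      f ((x.1.den : ℕ) : ↥(GaloisRep.ratLocalizedAt ℓ)) * g x := by
    rw [← map_mul, den_mul_self_ratLocalizedAt, map_intCast, map_natCast, ← map_natCast g,
      ← map_mul, den_mul_self_ratLocalizedAt, map_intCast]
  exact hu.mul_left_cancel h1

end RingHomExt

section Tensor

variable {ℓ : ℕ} [Fact ℓ.Prime]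

variable {A : Type*} [CommRing A] [Algebra ↥(GaloisRep.ratLocalizedAt ℓ) A]
variable {K : Type*} [Field K] [CharP K ℓ]

variable (ℓ K) in
/-- Coefficientwise extension of scalars `𝔽_ℓ((q)) → K((q))`. -/
def laurentCast : LaurentSeries (ZMod ℓ) →+* LaurentSeries K :=
  ModularCurve.coeffMap (ZMod.castHom (dvd_refl ℓ) K)

@[simp]
theorem laurentCast_coeff (x : LaurentSeries (ZMod ℓ)) (k : ℤ) :
    (laurentCast ℓ K x).coeff k = ZMod.castHom (dvd_refl ℓ) K (x.coeff k) := rfl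

theorem laurentCast_injective : Function.Injective (laurentCast ℓ K) := by
  intro x y h
  ext k
  have := congrArg (fun z => HahnSeries.coeff z k) h
  simp only [laurentCast_coeff] at this
  exact (ZMod.castHom (dvd_refl ℓ) K).injective this

variable [Algebra ↥(GaloisRep.ratLocalizedAt ℓ) K]

variable (K) in
/-- The ring homomorphism `A ⊗[ℤ_(ℓ)] K → K((q))`, `a ⊗ c ↦ c · ρ(a)`, attached to a ring
homomorphism `ρ : A → 𝔽_ℓ((q))`. -/
def tensorToLaurent (ρ : A →+* LaurentSeries (ZMod ℓ)) :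
    A ⊗[↥(GaloisRep.ratLocalizedAt ℓ)] K →+* LaurentSeries K :=
  letI : Algebra ↥(GaloisRep.ratLocalizedAt ℓ) (LaurentSeries K) :=
    (HahnSeries.C.comp (algebraMap ↥(GaloisRep.ratLocalizedAt ℓ) K)).toAlgebra
  (Algebra.TensorProduct.productMap
    (S := LaurentSeries K)
    ({ (laurentCast ℓ K).comp ρ with
        commutes' := fun r =>
          congrArg (fun f : ↥(GaloisRep.ratLocalizedAt ℓ) →+* LaurentSeries K => f r)
            (ratLocalizedAt_ringHom_ext
              (((laurentCast ℓ K).comp ρ).comp (algebraMap ↥(GaloisRep.ratLocalizedAt ℓ) A))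
              (HahnSeries.C.comp (algebraMap ↥(GaloisRep.ratLocalizedAt ℓ) K))) } :
      A →ₐ[↥(GaloisRep.ratLocalizedAt ℓ)] LaurentSeries K)
    ({ (HahnSeries.C : K →+* LaurentSeries K) with
        commutes' := fun _ => rfl } :
      K →ₐ[↥(GaloisRep.ratLocalizedAt ℓ)] LaurentSeries K)).toRingHom

@[simp]
theorem tensorToLaurent_tmul (ρ : A →+* LaurentSeries (ZMod ℓ)) (a : A) (c : K) :
    tensorToLaurent K ρ (a ⊗ₜ[↥(GaloisRep.ratLocalizedAt ℓ)] c) =
      laurentCast ℓ K (ρ a) * HahnSeries.C c := by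
  rfl

omit [Fact ℓ.Prime] in
theorem natCast_smul_eq_zero_of_charP (c : K) :
    ((ℓ : ℕ) : ↥(GaloisRep.ratLocalizedAt ℓ)) • c = 0 := by
  rw [Algebra.smul_def, map_natCast, CharP.cast_eq_zero, zero_mul]

omit [Fact ℓ.Prime] in
theorem natCast_mul_tmul_eq_zero (y : A) (c : K) :
    (((ℓ : ℕ) : A) * y) ⊗ₜ[↥(GaloisRep.ratLocalizedAt ℓ)] c = 0 := by
  have h : ((ℓ : ℕ) : A) * y = ((ℓ : ℕ) : ↥(GaloisRep.ratLocalizedAt ℓ)) • y := by
    rw [Algebra.smul_def, map_natCast]
  rw [h, TensorProduct.smul_tmul, natCast_smul_eq_zero_of_charP, TensorProduct.tmul_zero]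

/-- **Tensor step, injectivity.** If the kernel of `ρ : A → 𝔽_ℓ((q))` is contained in `ℓ A`, then
`A ⊗[ℤ_(ℓ)] K → K((q))` is injective for every field `K` of characteristic `ℓ`. -/
theorem tensorToLaurent_injective (ρ : A →+* LaurentSeries (ZMod ℓ))
    (hρ : ∀ x : A, ρ x = 0 → ∃ y : A, x = ((ℓ : ℕ) : A) * y) :
    Function.Injective (tensorToLaurent K ρ) := by
  classical
  let _ : Algebra (ZMod ℓ) K := ZMod.algebra K ℓ
  set B := Module.Basis.ofVectorSpace (ZMod ℓ) K with hB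
  let Λ : (Module.Basis.ofVectorSpaceIndex (ZMod ℓ) K →₀ A) →ₗ[↥(GaloisRep.ratLocalizedAt ℓ)]
      A ⊗[↥(GaloisRep.ratLocalizedAt ℓ)] K :=
    Finsupp.lsum ℕ (fun i => (TensorProduct.mk ↥(GaloisRep.ratLocalizedAt ℓ) A K).flip (B i))
  have hΛapply : ∀ b, Λ b = b.sum fun i a => a ⊗ₜ[↥(GaloisRep.ratLocalizedAt ℓ)] (B i) := by
    intro b
    rfl
  have hΛ : Function.Surjective Λ := by
    rw [← LinearMap.range_eq_top, eq_top_iff,
      ← TensorProduct.span_tmul_eq_top ↥(GaloisRep.ratLocalizedAt ℓ) A K, Submodule.span_le]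
    rintro _ ⟨a, c, rfl⟩
    refine ⟨(B.repr c).mapRange (fun t : ZMod ℓ => (t.val : ℕ) • a) (by simp), ?_⟩
    rw [hΛapply, Finsupp.sum_mapRange_index (by intro i; simp)]
    conv_rhs => rw [← B.linearCombination_repr c, Finsupp.linearCombination_apply]
    rw [Finsupp.sum, Finsupp.sum, TensorProduct.tmul_sum]
    refine Finset.sum_congr rfl fun i _ => ?_
    have h1 : ((B.repr c) i) • B i = (((B.repr c) i).val : ℕ) • B i := by
      conv_lhs => rw [← ZMod.natCast_zmod_val ((B.repr c) i)]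
      rw [Nat.cast_smul_eq_nsmul]
    rw [h1, TensorProduct.tmul_smul, TensorProduct.smul_tmul']
  rw [injective_iff_map_eq_zero]
  intro z hz
  obtain ⟨b, rfl⟩ := hΛ z
  rw [hΛapply, Finsupp.sum] at hz ⊢
  rw [map_sum] at hz
  have hcoeff : ∀ k : ℤ, ∑ i ∈ b.support, ((ρ (b i)).coeff k) • B i = 0 := by
    intro k
    have := congrArg (fun s : LaurentSeries K => s.coeff k) hz
    simp only [tensorToLaurent_tmul, HahnSeries.coeff_zero] at this
    rw [← this, HahnSeries.coeff_sum]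
    refine Finset.sum_congr rfl fun i _ => ?_
    rw [HahnSeries.C_apply, HahnSeries.coeff_mul_single_zero, laurentCast_coeff, Algebra.smul_def]
    rfl
  refine Finset.sum_eq_zero fun i hi => ?_
  have hzero : ρ (b i) = 0 := by
    ext k
    exact linearIndependent_iff'.mp B.linearIndependent b.support
      (fun i => (ρ (b i)).coeff k) (hcoeff k) i hi
  obtain ⟨y, hy⟩ := hρ _ hzero
  rw [hy]
  exact natCast_mul_tmul_eq_zero y (B i)

/-- **Tensor step (T).** If the kernel of `ρ : A → 𝔽_ℓ((q))` is contained in `ℓ A`, then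
`A ⊗[ℤ_(ℓ)] K` is a domain for every field `K` of characteristic `ℓ`. -/
theorem isDomain_tensor_of_ker (ρ : A →+* LaurentSeries (ZMod ℓ))
    (hρ : ∀ x : A, ρ x = 0 → ∃ y : A, x = ((ℓ : ℕ) : A) * y) :
    IsDomain (A ⊗[↥(GaloisRep.ratLocalizedAt ℓ)] K) :=
  Function.Injective.isDomain (tensorToLaurent K ρ) (tensorToLaurent_injective ρ hρ)

/-- Nontriviality needs no hypothesis on the kernel. -/
theorem nontrivial_tensor_of_ringHom (ρ : A →+* LaurentSeries (ZMod ℓ)) :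
    Nontrivial (A ⊗[↥(GaloisRep.ratLocalizedAt ℓ)] K) :=
  (tensorToLaurent K ρ).domain_nontrivial

/-- Variant of (T) with the tensor factors in the other order. -/
theorem isDomain_tensor_of_ker' (ρ : A →+* LaurentSeries (ZMod ℓ))
    (hρ : ∀ x : A, ρ x = 0 → ∃ y : A, x = ((ℓ : ℕ) : A) * y) :
    IsDomain (K ⊗[↥(GaloisRep.ratLocalizedAt ℓ)] A) :=
  haveI := isDomain_tensor_of_ker (K := K) ρ hρ
  (Algebra.TensorProduct.comm ↥(GaloisRep.ratLocalizedAt ℓ) K A).toMulEquiv.isDomain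

theorem nontrivial_tensor_of_ringHom' (ρ : A →+* LaurentSeries (ZMod ℓ)) :
    Nontrivial (K ⊗[↥(GaloisRep.ratLocalizedAt ℓ)] A) :=
  haveI := nontrivial_tensor_of_ringHom (K := K) ρ
  (Algebra.TensorProduct.comm ↥(GaloisRep.ratLocalizedAt ℓ) K A).toEquiv.nontrivial

end Tensor

end Fermat.Agent.S28.H865
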