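/-
S28 helper (helper865): reduction maps on the charts of the Igusa scheme and the final
reduction of S28 to the "kernel of reduction is generated by `ℓ`" statement.
-/
import Mathlib
import Fermat.Prelude.Def_ModularCurve_IgusaScheme
import Fermat.Prelude.Def_ModularCurve_X0ModL
import Fermat.Agent.S28.H865Tensor
import Fermat.Agent.S28.H865Reduction

set_option autoImplicit false

noncomputable section

namespace Fermat.Agent.S28.H865

open ModularCurve ModularCurve.IgusaScheme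
open scoped TensorProduct

section Generators

variable (ℓ : ℕ) [Fact ℓ.Prime]

omit [Fact ℓ.Prime] in
theorem toQ_jqNModC (d : ℕ) [NeZero d] :
    toQ ℓ (jqNModC ↥(GaloisRep.ratLocalizedAt ℓ) d) = qExpand ℚ d jq := by
  rw [toQ, coeffMap_jqNModC]
  rfl

omit [Fact ℓ.Prime] in
theorem toQ_jqModC : toQ ℓ (jqModC ↥(GaloisRep.ratLocalizedAt ℓ)) = jq := by
  rw [toQ, coeffMap_jqModC]
  rfl

theorem toRes_jqNModC (d : ℕ) [NeZero d] :
    toRes ℓ (jqNModC ↥(GaloisRep.ratLocalizedAt ℓ) d) = jqNModC (ZMod ℓ) d :=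
  coeffMap_jqNModC _ d

theorem toRes_jqModC : toRes ℓ (jqModC ↥(GaloisRep.ratLocalizedAt ℓ)) = jqModC (ZMod ℓ) :=
  coeffMap_jqModC _

theorem qExpand_jq_mem_igV (d : ℕ) [NeZero d] : qExpand ℚ d jq ∈ igV ℓ := by
  rw [← toQ_jqNModC ℓ d]
  exact toQ_mem_igV ℓ _

theorem jq_mem_igV : jq ∈ igV ℓ := by
  rw [← toQ_jqModC ℓ]
  exact toQ_mem_igV ℓ _

theorem igRed_qExpand_jq (d : ℕ) [NeZero d] :
    igRed ℓ ⟨qExpand ℚ d jq, qExpand_jq_mem_igV ℓ d⟩ = jqNModC (ZMod ℓ) d := by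
  rw [igRed_eq ℓ _ (jqNModC ↥(GaloisRep.ratLocalizedAt ℓ) d) 1 (by simp)
    (by simp [toQ_jqNModC]), toRes_jqNModC]
  simp

theorem igRed_jq : igRed ℓ ⟨jq, jq_mem_igV ℓ⟩ = jqModC (ZMod ℓ) := by
  rw [igRed_eq ℓ _ (jqModC ↥(GaloisRep.ratLocalizedAt ℓ)) 1 (by simp)
    (by simp [toQ_jqModC]), toRes_jqModC]
  simp

theorem jq_inv_mem_igV : jq⁻¹ ∈ igV ℓ := by
  refine inv_mem_igV_of_igRed_ne_zero ℓ ⟨jq, jq_mem_igV ℓ⟩ ?_
  rw [igRed_jq]
  exact jqModC_ne_zero_of_nontrivial (ZMod ℓ)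

theorem igRed_jq_inv : igRed ℓ ⟨jq⁻¹, jq_inv_mem_igV ℓ⟩ = (jqModC (ZMod ℓ))⁻¹ := by
  have h : (⟨jq⁻¹, jq_inv_mem_igV ℓ⟩ : igV ℓ) * ⟨jq, jq_mem_igV ℓ⟩ = 1 :=
    Subtype.ext (inv_mul_cancel₀ jq_ne_zero)
  have h2 := congrArg (igRed ℓ) h
  rw [map_mul, map_one, igRed_jq] at h2
  exact eq_inv_of_mul_eq_one_left h2

end Generators

section Charts

variable (N : ℕ) [NeZero N] (ℓ : ℕ) [Fact ℓ.Prime]

omit [Fact ℓ.Prime] [NeZero N] in
/-- The full modular function field is contained in the fraction field of `igV`. -/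
theorem modularFunctionFieldFull_le_igE : modularFunctionFieldFull N ≤ igE ℓ := by
  rw [modularFunctionFieldFull, IntermediateField.adjoin_le_iff]
  rintro x ⟨d, hd, -, rfl⟩
  have := hd
  rw [← toQ_jqNModC ℓ d]
  exact (mem_igE_iff ℓ).mpr ⟨jqNModC ↥(GaloisRep.ratLocalizedAt ℓ) d, 1, one_ne_zero, by simp⟩

theorem coe_algebraMap_mem_igV (r : ↥(GaloisRep.ratLocalizedAt ℓ)) :
    ((algebraMap ↥(GaloisRep.ratLocalizedAt ℓ) ↥(modularFunctionFieldFull N) r :
      ↥(modularFunctionFieldFull N)) : LaurentSeries ℚ) ∈ igV ℓ := by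
  have h : ((algebraMap ↥(GaloisRep.ratLocalizedAt ℓ) ↥(modularFunctionFieldFull N) r :
      ↥(modularFunctionFieldFull N)) : LaurentSeries ℚ) =
      toQ ℓ (HahnSeries.C r) := by
    exact congrArg (fun f : ↥(GaloisRep.ratLocalizedAt ℓ) →+* LaurentSeries ℚ => f r)
      (ratLocalizedAt_ringHom_ext
        ((algebraMap ↥(modularFunctionFieldFull N) (LaurentSeries ℚ)).comp
          (algebraMap ↥(GaloisRep.ratLocalizedAt ℓ) ↥(modularFunctionFieldFull N)))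
        ((toQ ℓ).comp HahnSeries.C))
  rw [h]
  exact toQ_mem_igV ℓ _

variable {N ℓ} in
theorem coe_mem_igV_of_mem_adjoin {S : Set ↥(modularFunctionFieldFull N)}
    (hS : S ⊆ {jFull N, (jFull N)⁻¹}) {x : ↥(modularFunctionFieldFull N)}
    (hx : x ∈ Algebra.adjoin ↥(GaloisRep.ratLocalizedAt ℓ) S) :
    (x : LaurentSeries ℚ) ∈ igV ℓ := by
  induction hx using Algebra.adjoin_induction with
  | mem y hy =>
    rcases hS hy with rfl | rfl
    · exact jq_mem_igV ℓ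
    · exact jq_inv_mem_igV ℓ
  | algebraMap r => exact coe_algebraMap_mem_igV N ℓ r
  | add y z _ _ hy hz => exact (igV ℓ).add_mem hy hz
  | mul y z _ _ hy hz => exact (igV ℓ).mul_mem hy hz

variable {N ℓ} in
/-- **The charts lie in the valuation ring**: every element of `chartAlg N ℓ S`,
`S ⊆ {j, j⁻¹}`, has a `q`-expansion in `igV ℓ`. -/
theorem coe_mem_igV_of_mem_chartAlg {S : Set ↥(modularFunctionFieldFull N)}
    (hS : S ⊆ {jFull N, (jFull N)⁻¹}) {x : ↥(modularFunctionFieldFull N)}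
    (hx : x ∈ chartAlg N ℓ S) : (x : LaurentSeries ℚ) ∈ igV ℓ := by
  refine mem_igV_of_isIntegral ℓ (modularFunctionFieldFull_le_igE N ℓ x.2) ?_
  rw [mem_chartAlg_iff] at hx
  let φ : ↥(Algebra.adjoin ↥(GaloisRep.ratLocalizedAt ℓ) S) →+* ↥(igV ℓ) :=
    RingHom.codRestrict
      ((algebraMap ↥(modularFunctionFieldFull N) (LaurentSeries ℚ)).comp
        (algebraMap ↥(Algebra.adjoin ↥(GaloisRep.ratLocalizedAt ℓ) S)
          ↥(modularFunctionFieldFull N)))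
      (igV ℓ) (fun y => coe_mem_igV_of_mem_adjoin hS y.2)
  exact hx.map_of_comp_eq φ (algebraMap ↥(modularFunctionFieldFull N) (LaurentSeries ℚ))
    (by ext y; rfl)

variable {N ℓ} in
/-- The inclusion of a chart into the valuation ring `igV ℓ`. -/
def chartToV {S : Set ↥(modularFunctionFieldFull N)} (hS : S ⊆ {jFull N, (jFull N)⁻¹}) :
    ↥(chartAlg N ℓ S) →+* ↥(igV ℓ) :=
  RingHom.codRestrict
    ((algebraMap ↥(modularFunctionFieldFull N) (LaurentSeries ℚ)).comp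
      (chartAlg N ℓ S).val.toRingHom)
    (igV ℓ) (fun y => coe_mem_igV_of_mem_chartAlg hS y.2)

variable {N ℓ} in
@[simp]
theorem coe_chartToV {S : Set ↥(modularFunctionFieldFull N)}
    (hS : S ⊆ {jFull N, (jFull N)⁻¹}) (x : ↥(chartAlg N ℓ S)) :
    ((chartToV hS x : ↥(igV ℓ)) : LaurentSeries ℚ) = ((x : ↥(modularFunctionFieldFull N)) :
      LaurentSeries ℚ) := rfl

variable {N ℓ} in
/-- **Reduction modulo `ℓ` of `q`-expansions on a chart.** -/
def chartRed {S : Set ↥(modularFunctionFieldFull N)} (hS : S ⊆ {jFull N, (jFull N)⁻¹}) :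
    ↥(chartAlg N ℓ S) →+* LaurentSeries (ZMod ℓ) :=
  (igRed ℓ).comp (chartToV hS)

variable {N ℓ} in
theorem chartRed_apply {S : Set ↥(modularFunctionFieldFull N)}
    (hS : S ⊆ {jFull N, (jFull N)⁻¹}) (x : ↥(chartAlg N ℓ S)) :
    chartRed hS x = igRed ℓ ⟨((x : ↥(modularFunctionFieldFull N)) : LaurentSeries ℚ),
      coe_mem_igV_of_mem_chartAlg hS x.2⟩ := rfl

/-- Reduction on the finite chart. -/
abbrev chartRedFin : ↥(chartAlgFin N ℓ) →+* LaurentSeries (ZMod ℓ) :=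
  chartRed (sFin_subset N)

/-- Reduction on the chart at infinity. -/
abbrev chartRedInf : ↥(chartAlgInf N ℓ) →+* LaurentSeries (ZMod ℓ) :=
  chartRed (sInf_subset N)

/-- Reduction on the overlap. -/
abbrev chartRedMid : ↥(chartAlgMid N ℓ) →+* LaurentSeries (ZMod ℓ) :=
  chartRed (subset_refl _)

theorem chartRedFin_jChartFin : chartRedFin N ℓ (jChartFin N ℓ) = jqModC (ZMod ℓ) :=
  igRed_jq ℓ

theorem chartRedInf_jInvChartInf : chartRedInf N ℓ (jInvChartInf N ℓ) = (jqModC (ZMod ℓ))⁻¹ :=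
  igRed_jq_inv ℓ

end Charts

end Fermat.Agent.S28.H865
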