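/-
S28 helper (helper865): the key integrality step on a chart.

For `t ∈ {j, j⁻¹}` and `a ∈ F`: if `ℓ · a` and `s · a` lie in `chartAlg N ℓ {t}` for some
`s ∈ ℤ_(ℓ)[t]` whose `q`-expansion does not reduce to zero, then `a ∈ chartAlg N ℓ {t}`.
-/
import Mathlib
import Fermat.Prelude.Def_ModularCurve_IgusaScheme
import Fermat.Prelude.Def_ModularCurve_X0ModL
import Fermat.Agent.S28.H865Charts
import Fermat.Agent.S28.H865Integral
import Fermat.Agent.S28.H865Dvr

set_option autoImplicit false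

noncomputable section

namespace Fermat.Agent.S28.H865

open ModularCurve ModularCurve.IgusaScheme

section Transcendental

variable (N : ℕ) (ℓ : ℕ)

/-- The coercion `F → ℚ((q))` composed with the structure map of `F` is the constant
embedding of `ℤ_(ℓ)`. -/
theorem coe_comp_algebraMap_eq :
    (algebraMap ↥(modularFunctionFieldFull N) (LaurentSeries ℚ)).comp
      (algebraMap ↥(GaloisRep.ratLocalizedAt ℓ) ↥(modularFunctionFieldFull N)) =
    (algebraMap ℚ (LaurentSeries ℚ)).comp (GaloisRep.ratLocalizedAt ℓ).subtype :=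
  ratLocalizedAt_ringHom_ext _ _

theorem coe_aeval_eq (t : ↥(modularFunctionFieldFull N))
    (p : Polynomial ↥(GaloisRep.ratLocalizedAt ℓ)) :
    ((Polynomial.aeval t p : ↥(modularFunctionFieldFull N)) : LaurentSeries ℚ) =
      Polynomial.aeval (t : LaurentSeries ℚ) (p.map (GaloisRep.ratLocalizedAt ℓ).subtype) := by
  have h := Polynomial.hom_eval₂ p
    (algebraMap ↥(GaloisRep.ratLocalizedAt ℓ) ↥(modularFunctionFieldFull N))
    (algebraMap ↥(modularFunctionFieldFull N) (LaurentSeries ℚ)) t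
  rw [coe_comp_algebraMap_eq] at h
  rw [Polynomial.aeval_def, Polynomial.aeval_def, Polynomial.eval₂_map]
  exact h

variable [NeZero N]

/-- `j` is transcendental over `ℤ_(ℓ)`. -/
theorem transcendental_jFull : Transcendental ↥(GaloisRep.ratLocalizedAt ℓ) (jFull N) := by
  rw [transcendental_iff]
  intro p hp
  have h1 := coe_aeval_eq N ℓ (jFull N) p
  rw [hp] at h1
  have h2 : Polynomial.aeval (jqModC ℚ) (p.map (GaloisRep.ratLocalizedAt ℓ).subtype) = 0 :=
    h1.symm
  have h3 := P2MW.S_ModularCurve_coeff_jqModC_neg_one.ModularCurve.CharLRows.aeval_jqModC_eq_zero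
    ℚ h2
  exact Polynomial.map_injective _ Subtype.val_injective (by rw [h3, Polynomial.map_zero])

/-- `j⁻¹` is transcendental over `ℤ_(ℓ)`. -/
theorem transcendental_jFull_inv :
    Transcendental ↥(GaloisRep.ratLocalizedAt ℓ) (jFull N)⁻¹ := by
  intro h
  apply transcendental_jFull N ℓ
  have := h.inv
  rwa [inv_inv] at this

end Transcendental

section Adjoin

variable {N : ℕ} {ℓ : ℕ} [Fact ℓ.Prime]

/-- For a transcendental `t`, the subalgebra `ℤ_(ℓ)[t]` is a polynomial ring. -/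
def adjoinEquiv {t : ↥(modularFunctionFieldFull N)}
    (ht : Transcendental ↥(GaloisRep.ratLocalizedAt ℓ) t) :
    Polynomial ↥(GaloisRep.ratLocalizedAt ℓ) ≃ₐ[↥(GaloisRep.ratLocalizedAt ℓ)]
      ↥(Algebra.adjoin ↥(GaloisRep.ratLocalizedAt ℓ) ({t} : Set ↥(modularFunctionFieldFull N))) :=
  (AlgEquiv.ofInjective (Polynomial.aeval t) (transcendental_iff_injective.mp ht)).trans
    (Subalgebra.equivOfEq _ _ (Algebra.adjoin_singleton_eq_range_aeval _ t).symm)

theorem isIntegrallyClosed_adjoin {t : ↥(modularFunctionFieldFull N)}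
    (ht : Transcendental ↥(GaloisRep.ratLocalizedAt ℓ) t) :
    IsIntegrallyClosed
      ↥(Algebra.adjoin ↥(GaloisRep.ratLocalizedAt ℓ) ({t} : Set ↥(modularFunctionFieldFull N))) :=
  haveI := isIntegrallyClosed_polynomial_ratLocalizedAt ℓ
  IsIntegrallyClosed.of_equiv (adjoinEquiv ht).toRingEquiv

theorem prime_natCast_adjoin {t : ↥(modularFunctionFieldFull N)}
    (ht : Transcendental ↥(GaloisRep.ratLocalizedAt ℓ) t) :
    Prime (((ℓ : ℕ) :
      ↥(Algebra.adjoin ↥(GaloisRep.ratLocalizedAt ℓ) ({t} : Set ↥(modularFunctionFieldFull N))))) := by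
  have h : Prime ((adjoinEquiv ht) (Polynomial.C ((ℓ : ℕ) : ↥(GaloisRep.ratLocalizedAt ℓ)))) :=
    (MulEquiv.prime_iff (adjoinEquiv ht)).mpr (prime_C_natCast ℓ)
  rwa [Polynomial.C_eq_natCast, map_natCast] at h

end Adjoin

section Key

variable {N : ℕ} [NeZero N] {ℓ : ℕ} [Fact ℓ.Prime]

/-- **Key integrality step.** If `ℓ · a` and `s · a` are integral over `ℤ_(ℓ)[t]`, where
`s ∈ ℤ_(ℓ)[t]` is not divisible by `ℓ` in `ℤ_(ℓ)[t]` and `t` is transcendental, then `a` is
integral over `ℤ_(ℓ)[t]`. -/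
theorem mem_chartAlg_of_mul_mem {t : ↥(modularFunctionFieldFull N)}
    (ht : Transcendental ↥(GaloisRep.ratLocalizedAt ℓ) t) {a s : ↥(modularFunctionFieldFull N)}
    (hs : s ∈ Algebra.adjoin ↥(GaloisRep.ratLocalizedAt ℓ)
      ({t} : Set ↥(modularFunctionFieldFull N)))
    (hsdiv : ¬ ∃ s' ∈ Algebra.adjoin ↥(GaloisRep.ratLocalizedAt ℓ)
      ({t} : Set ↥(modularFunctionFieldFull N)),
        s = ((ℓ : ℕ) : ↥(modularFunctionFieldFull N)) * s')
    (h1 : ((ℓ : ℕ) : ↥(modularFunctionFieldFull N)) * a ∈ chartAlg N ℓ {t})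
    (h2 : s * a ∈ chartAlg N ℓ {t}) :
    a ∈ chartAlg N ℓ {t} := by
  rw [mem_chartAlg_iff] at h1 h2 ⊢
  haveI := isIntegrallyClosed_adjoin ht
  have hℓ := prime_natCast_adjoin ht
  have hs' : ¬ (((ℓ : ℕ) : ↥(Algebra.adjoin ↥(GaloisRep.ratLocalizedAt ℓ)
      ({t} : Set ↥(modularFunctionFieldFull N))))) ∣ ⟨s, hs⟩ := by
    rintro ⟨s', hs'⟩
    refine hsdiv ⟨s'.1, s'.2, ?_⟩
    have := congrArg Subtype.val hs'
    simpa using this
  haveI : FaithfulSMul ↥(Algebra.adjoin ↥(GaloisRep.ratLocalizedAt ℓ)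
      ({t} : Set ↥(modularFunctionFieldFull N))) ↥(modularFunctionFieldFull N) :=
    (faithfulSMul_iff_algebraMap_injective _ _).mpr Subtype.val_injective
  refine isIntegral_of_smul_of_smul hℓ hs' ?_ ?_
  · have : (((ℓ : ℕ) : ↥(Algebra.adjoin ↥(GaloisRep.ratLocalizedAt ℓ)
        ({t} : Set ↥(modularFunctionFieldFull N))))) • a =
        ((ℓ : ℕ) : ↥(modularFunctionFieldFull N)) * a := by
      rw [Algebra.smul_def, map_natCast]
    rw [this]
    exact h1
  · have : (⟨s, hs⟩ : ↥(Algebra.adjoin ↥(GaloisRep.ratLocalizedAt ℓ)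
        ({t} : Set ↥(modularFunctionFieldFull N)))) • a = s * a := by
      rw [Algebra.smul_def]
      rfl
    rw [this]
    exact h2

end Key

end Fermat.Agent.S28.H865
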