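/-
S28 helper (helper865): from `BasisData` to the statement
"every `a ∈ F ∩ igV` becomes integral over `ℤ_(ℓ)[j]` after multiplication by some
`s ∈ ℤ_(ℓ)[j]` with nonzero reduction".
-/
import Mathlib
import Fermat.Agent.S28.Defs
import Fermat.Agent.S28.Basis
import Fermat.Agent.S28.H865Charts
import Fermat.Agent.S28.H865Dvr
import Fermat.Agent.S28.H865Key

set_option autoImplicit false

noncomputable section

namespace Fermat.Agent.S28.H865

open ModularCurve ModularCurve.IgusaScheme Fermat.Agent.S28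

section IntSeries

variable (ℓ : ℕ) [Fact ℓ.Prime]

omit [Fact ℓ.Prime] in
theorem coeffMap_int_eq_toQ (w : LaurentSeries ℤ) :
    coeffMap (Int.castRingHom ℚ) w =
      toQ ℓ (coeffMap (Int.castRingHom ↥(GaloisRep.ratLocalizedAt ℓ)) w) := by
  rw [toQ, coeffMap_coeffMap]
  exact coeffMap_congr (RingHom.ext_int _ _) w

theorem coeffMap_int_eq_toRes (w : LaurentSeries ℤ) :
    coeffMap (Int.castRingHom (ZMod ℓ)) w =
      toRes ℓ (coeffMap (Int.castRingHom ↥(GaloisRep.ratLocalizedAt ℓ)) w) := by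
  rw [toRes, coeffMap_coeffMap]
  exact coeffMap_congr (RingHom.ext_int _ _) w

theorem coeffMap_int_mem_igV (w : LaurentSeries ℤ) :
    coeffMap (Int.castRingHom ℚ) w ∈ igV ℓ := by
  rw [coeffMap_int_eq_toQ ℓ]
  exact toQ_mem_igV ℓ _

theorem igRed_coeffMap_int (w : LaurentSeries ℤ) :
    igRed ℓ ⟨coeffMap (Int.castRingHom ℚ) w, coeffMap_int_mem_igV ℓ w⟩ =
      coeffMap (Int.castRingHom (ZMod ℓ)) w := by
  rw [coeffMap_int_eq_toRes ℓ, ← igRed_toQ]
  congr 1

/-- An element of `ℓ · igV` has zero reduction. -/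
theorem igRed_eq_zero_of_eq_mul {x : LaurentSeries ℚ} (hx : x ∈ igV ℓ) {v : LaurentSeries ℚ}
    (hv : v ∈ igV ℓ) (h : x = ((ℓ : ℕ) : LaurentSeries ℚ) * v) : igRed ℓ ⟨x, hx⟩ = 0 := by
  rw [igRed_eq_zero_iff]
  exact ⟨⟨v, hv⟩, Subtype.ext (by simpa using h)⟩

theorem exists_eq_mul_of_igRed_eq_zero {x : LaurentSeries ℚ} (hx : x ∈ igV ℓ)
    (h : igRed ℓ ⟨x, hx⟩ = 0) : ∃ v ∈ igV ℓ, x = ((ℓ : ℕ) : LaurentSeries ℚ) * v := by
  obtain ⟨y, hy⟩ := (igRed_eq_zero_iff ℓ _).mp h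
  refine ⟨y.1, y.2, ?_⟩
  have := congrArg Subtype.val hy
  simpa using this

end IntSeries

section EvalAt

theorem evalAt_eq_coeffMap {A : Type*} [CommRing A] (g : Polynomial ℤ) :
    evalAt (jqModC A) g = coeffMap (Int.castRingHom A) (evalAt (jqModC ℤ) g) := by
  have h : evalAt (jqModC A) =
      (coeffMap (Int.castRingHom A)).comp (evalAt (jqModC ℤ)) := by
    refine Polynomial.ringHom_ext (fun a => ?_) ?_
    · simp only [evalAt, AlgHom.toRingHom_eq_coe, RingHom.coe_coe, RingHom.comp_apply,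
        Polynomial.aeval_C, algebraMap_int_eq, eq_intCast, map_intCast]
    · simp only [evalAt, AlgHom.toRingHom_eq_coe, RingHom.coe_coe, RingHom.comp_apply,
        Polynomial.aeval_X]
      exact (coeffMap_jqModC (Int.castRingHom A)).symm
  rw [h]
  rfl

theorem aeval_map_intCast_eq {k : Type*} [Field k] (g : Polynomial ℤ) :
    Polynomial.aeval (jqModC k) (g.map (Int.castRingHom k)) = evalAt (jqModC k) g := by
  rw [Polynomial.aeval_def, Polynomial.eval₂_map]
  show _ = Polynomial.aeval (jqModC k) g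
  rw [Polynomial.aeval_def]
  congr 1
  exact RingHom.ext_int _ _

theorem evalAt_C_natCast {A : Type*} [CommRing A] (y : LaurentSeries A) (c : ℕ) :
    evalAt y (Polynomial.C ((c : ℕ) : ℤ)) = ((c : ℕ) : LaurentSeries A) := by
  simp [evalAt]

end EvalAt

section Normalize

variable {ℓ : ℕ} [Fact ℓ.Prime]

theorem C_dvd_of_map_eq_zero (f : Polynomial ℤ)
    (h : f.map (Int.castRingHom (ZMod ℓ)) = 0) : Polynomial.C ((ℓ : ℕ) : ℤ) ∣ f := by
  rw [Polynomial.C_dvd_iff_dvd_coeff]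
  intro i
  have h1 := congrArg (fun p => Polynomial.coeff p i) h
  simp only [Polynomial.coeff_map, Polynomial.coeff_zero] at h1
  exact (ZMod.intCast_zmod_eq_zero_iff_dvd _ _).mp h1

theorem map_ne_zero_of_not_C_dvd (g : Polynomial ℤ)
    (h : ¬ Polynomial.C ((ℓ : ℕ) : ℤ) ∣ g) : g.map (Int.castRingHom (ZMod ℓ)) ≠ 0 :=
  fun h0 => h (C_dvd_of_map_eq_zero g h0)

/-- **Normalisation.** A relation `g(j) a = ∑ fᵢ(j) yᵢ` with `a ∈ igV` can be replaced by one
in which `g` is not divisible by `ℓ`. -/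
theorem exists_normalized {n : ℕ} (y : Fin n → LaurentSeries ℤ)
    (hB3 : ∀ f : Fin n → Polynomial (ZMod ℓ),
      ∑ i, Polynomial.aeval (jqModC (ZMod ℓ)) (f i) *
        coeffMap (Int.castRingHom (ZMod ℓ)) (y i) = 0 → ∀ i, f i = 0)
    {a : LaurentSeries ℚ} (ha : a ∈ igV ℓ) :
    ∀ (m : ℕ) (g : Polynomial ℤ) (f : Fin n → Polynomial ℤ),
      g.leadingCoeff.natAbs = m → g ≠ 0 →
      evalAt (jqModC ℚ) g * a =
        ∑ i, evalAt (jqModC ℚ) (f i) * coeffMap (Int.castRingHom ℚ) (y i) →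
      ∃ (g' : Polynomial ℤ) (f' : Fin n → Polynomial ℤ),
        ¬ Polynomial.C ((ℓ : ℕ) : ℤ) ∣ g' ∧
        evalAt (jqModC ℚ) g' * a =
          ∑ i, evalAt (jqModC ℚ) (f' i) * coeffMap (Int.castRingHom ℚ) (y i) := by
  intro m
  induction m using Nat.strong_induction_on with
  | _ m ih =>
    intro g f hm hg heq
    by_cases hdvd : Polynomial.C ((ℓ : ℕ) : ℤ) ∣ g
    · obtain ⟨g1, rfl⟩ := hdvd
      set W : LaurentSeries ℤ := ∑ i, evalAt (jqModC ℤ) (f i) * y i with hW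
      have hWQ : coeffMap (Int.castRingHom ℚ) W =
          ∑ i, evalAt (jqModC ℚ) (f i) * coeffMap (Int.castRingHom ℚ) (y i) := by
        rw [hW, map_sum]
        refine Finset.sum_congr rfl fun i _ => ?_
        rw [map_mul, ← evalAt_eq_coeffMap]
      have hg1mem : evalAt (jqModC ℚ) g1 * a ∈ igV ℓ :=
        (igV ℓ).mul_mem (by rw [evalAt_eq_coeffMap]; exact coeffMap_int_mem_igV ℓ _) ha
      have hred : coeffMap (Int.castRingHom (ZMod ℓ)) W = 0 := by
        rw [← igRed_coeffMap_int ℓ W]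
        refine igRed_eq_zero_of_eq_mul ℓ _ hg1mem ?_
        rw [hWQ, ← heq, map_mul, evalAt_C_natCast, mul_assoc]
      have hf : ∀ i, (f i).map (Int.castRingHom (ZMod ℓ)) = 0 := by
        apply hB3
        rw [← hred, hW, map_sum]
        refine Finset.sum_congr rfl fun i _ => ?_
        rw [map_mul, aeval_map_intCast_eq, evalAt_eq_coeffMap (A := ZMod ℓ)]
      choose f1 hf1 using fun i => C_dvd_of_map_eq_zero (f i) (hf i)
      have hg1 : g1 ≠ 0 := right_ne_zero_of_mul hg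
      refine ih g1.leadingCoeff.natAbs ?_ g1 f1 rfl hg1 ?_
      · rw [← hm, Polynomial.leadingCoeff_mul, Polynomial.leadingCoeff_C, Int.natAbs_mul,
          Int.natAbs_natCast]
        have h1 : 0 < g1.leadingCoeff.natAbs :=
          Int.natAbs_pos.mpr (Polynomial.leadingCoeff_ne_zero.mpr hg1)
        have h2 := (Fact.out : ℓ.Prime).one_lt
        nlinarith
      · have hℓ := natCast_laurent_rat_ne_zero ℓ
        apply mul_left_cancel₀ hℓ
        rw [Finset.mul_sum, ← mul_assoc, ← evalAt_C_natCast (jqModC ℚ) ℓ, ← map_mul, heq]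
        refine Finset.sum_congr rfl fun i _ => ?_
        rw [hf1 i, map_mul, mul_assoc]
    · exact ⟨g, f, hdvd, heq⟩

end Normalize

section Integrality

variable (N : ℕ) [NeZero N] (ℓ : ℕ) [Fact ℓ.Prime]

/-- Evaluation at `j`, `ℤ_(ℓ)[X] → F`. -/
def evF : Polynomial ↥(GaloisRep.ratLocalizedAt ℓ) →+* ↥(modularFunctionFieldFull N) :=
  (Polynomial.aeval (jFull N) :
    Polynomial ↥(GaloisRep.ratLocalizedAt ℓ) →ₐ[↥(GaloisRep.ratLocalizedAt ℓ)]
      ↥(modularFunctionFieldFull N)).toRingHom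

/-- Evaluation at `j`, `ℤ_(ℓ)[X] → ℚ((q))`. -/
def evL : Polynomial ↥(GaloisRep.ratLocalizedAt ℓ) →+* LaurentSeries ℚ :=
  (algebraMap ↥(modularFunctionFieldFull N) (LaurentSeries ℚ)).comp (evF N ℓ)

omit [Fact ℓ.Prime] in
theorem evF_apply (p : Polynomial ↥(GaloisRep.ratLocalizedAt ℓ)) :
    evF N ℓ p = Polynomial.aeval (jFull N) p := rfl

omit [Fact ℓ.Prime] in
theorem evL_apply (p : Polynomial ↥(GaloisRep.ratLocalizedAt ℓ)) :
    evL N ℓ p = ((Polynomial.aeval (jFull N) p : ↥(modularFunctionFieldFull N)) :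
      LaurentSeries ℚ) := rfl

omit [Fact ℓ.Prime] in
theorem evL_comp_mapRingHom :
    (evL N ℓ).comp (Polynomial.mapRingHom (Int.castRingHom ↥(GaloisRep.ratLocalizedAt ℓ))) =
      evalAt (jqModC ℚ) := by
  refine Polynomial.ringHom_ext (fun a => ?_) ?_
  · simp only [evalAt, RingHom.comp_apply, Polynomial.coe_mapRingHom, Polynomial.map_C,
      eq_intCast, AlgHom.toRingHom_eq_coe, RingHom.coe_coe, Polynomial.aeval_C,
      algebraMap_int_eq, map_intCast]
  · simp only [evalAt, RingHom.comp_apply, Polynomial.coe_mapRingHom, Polynomial.map_X,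
      AlgHom.toRingHom_eq_coe, RingHom.coe_coe, Polynomial.aeval_X]
    rw [evL_apply, Polynomial.aeval_X]
    rfl

omit [Fact ℓ.Prime] in
theorem evL_map_intCast (g : Polynomial ℤ) :
    evL N ℓ (g.map (Int.castRingHom ↥(GaloisRep.ratLocalizedAt ℓ))) = evalAt (jqModC ℚ) g :=
  congrArg (fun φ : Polynomial ℤ →+* LaurentSeries ℚ => φ g) (evL_comp_mapRingHom N ℓ)

theorem isUnit_natCast_of_not_dvd {c : ℕ} (hc : ¬ ℓ ∣ c) :
    IsUnit ((c : ℕ) : ↥(GaloisRep.ratLocalizedAt ℓ)) := by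
  refine isUnit_of_resZl_ne_zero ℓ ?_
  rw [map_natCast, Ne, ZMod.natCast_eq_zero_iff]
  exact hc

/-- (B1) gives integrality of `y` over `ℤ_(ℓ)[j]`. -/
theorem isIntegralElem_of_B1 {y : LaurentSeries ℤ} {c : ℕ} {P : Polynomial (Polynomial ℤ)}
    (hc : ¬ ℓ ∣ c) (hlead : P.leadingCoeff = Polynomial.C ((c : ℕ) : ℤ))
    (hP : P.eval₂ (evalAt (jqModC ℤ)) y = 0) :
    (evL N ℓ).IsIntegralElem (coeffMap (Int.castRingHom ℚ) y) := by
  set Q : Polynomial (Polynomial ↥(GaloisRep.ratLocalizedAt ℓ)) :=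
    P.map (Polynomial.mapRingHom (Int.castRingHom ↥(GaloisRep.ratLocalizedAt ℓ))) with hQ
  have hcu := isUnit_natCast_of_not_dvd ℓ hc
  have hmapC : Polynomial.mapRingHom (Int.castRingHom ↥(GaloisRep.ratLocalizedAt ℓ))
      (Polynomial.C ((c : ℕ) : ℤ)) = Polynomial.C ((c : ℕ) : ↥(GaloisRep.ratLocalizedAt ℓ)) := by
    rw [Polynomial.coe_mapRingHom, Polynomial.map_C, map_natCast]
  have hQlead : Q.leadingCoeff =
      Polynomial.C ((c : ℕ) : ↥(GaloisRep.ratLocalizedAt ℓ)) := by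
    rw [hQ, Polynomial.leadingCoeff_map_of_leadingCoeff_ne_zero]
    · rw [hlead, hmapC]
    · rw [hlead, hmapC, Ne, Polynomial.C_eq_zero]
      exact hcu.ne_zero
  have hQunit : IsUnit Q.leadingCoeff := by
    rw [hQlead]
    exact Polynomial.isUnit_C.mpr hcu
  have hQeval : Q.eval₂ (evL N ℓ) (coeffMap (Int.castRingHom ℚ) y) = 0 := by
    rw [hQ, Polynomial.eval₂_map, evL_comp_mapRingHom]
    have h1 : evalAt (jqModC ℚ) =
        (coeffMap (Int.castRingHom ℚ)).comp (evalAt (jqModC ℤ)) :=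
      RingHom.ext fun g => evalAt_eq_coeffMap g
    rw [h1, ← Polynomial.hom_eval₂, hP, map_zero]
  refine ⟨hQunit.unit⁻¹ • Q, Polynomial.monic_of_isUnit_leadingCoeff_inv_smul hQunit, ?_⟩
  rw [Units.smul_def, Polynomial.eval₂_smul, hQeval, mul_zero]

/-- The ring hom `ℤ_(ℓ)[X] → ℤ_(ℓ)[j]`. -/
def evAdjoin : Polynomial ↥(GaloisRep.ratLocalizedAt ℓ) →+*
    ↥(Algebra.adjoin ↥(GaloisRep.ratLocalizedAt ℓ)
      ({jFull N} : Set ↥(modularFunctionFieldFull N))) :=
  RingHom.codRestrict (evF N ℓ) _ (fun _ => Polynomial.aeval_mem_adjoin_singleton _ _)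

omit [Fact ℓ.Prime] in
theorem algebraMap_comp_evAdjoin :
    (algebraMap ↥(Algebra.adjoin ↥(GaloisRep.ratLocalizedAt ℓ)
      ({jFull N} : Set ↥(modularFunctionFieldFull N))) ↥(modularFunctionFieldFull N)).comp
      (evAdjoin N ℓ) = evF N ℓ := rfl

omit [Fact ℓ.Prime] in
/-- Transfer of integrality from `ℚ((q))` to `F` and to the chart. -/
theorem mem_chartAlgFin_of_isIntegralElem {x : ↥(modularFunctionFieldFull N)}
    (hx : (evL N ℓ).IsIntegralElem (x : LaurentSeries ℚ)) : x ∈ chartAlgFin N ℓ := by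
  have h1 : (evF N ℓ).IsIntegralElem x :=
    RingHom.IsIntegralElem.of_map
      (g := algebraMap ↥(modularFunctionFieldFull N) (LaurentSeries ℚ))
      Subtype.val_injective hx
  rw [← algebraMap_comp_evAdjoin] at h1
  exact RingHom.IsIntegralElem.of_comp h1

/-- **(HC) for the finite chart.** Given `BasisData`, every `a ∈ F` whose `q`-expansion lies in
the valuation ring `igV` becomes integral over `ℤ_(ℓ)[j]` after multiplication by some
`s ∈ ℤ_(ℓ)[j]` whose `q`-expansion is not in `ℓ · igV`. -/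
theorem exists_mul_mem_chartAlgFin (h : BasisData N ℓ) (a : ↥(modularFunctionFieldFull N))
    (ha : (a : LaurentSeries ℚ) ∈ igV ℓ) :
    ∃ s : ↥(modularFunctionFieldFull N),
      s ∈ Algebra.adjoin ↥(GaloisRep.ratLocalizedAt ℓ)
        ({jFull N} : Set ↥(modularFunctionFieldFull N)) ∧
      (¬ ∃ v ∈ igV ℓ, (s : LaurentSeries ℚ) = ((ℓ : ℕ) : LaurentSeries ℚ) * v) ∧
      s * a ∈ chartAlgFin N ℓ := by
  obtain ⟨n, y, hB1, hB2, hB3⟩ := h.exists_basis
  obtain ⟨g0, f0, hg0, heq0⟩ := hB2 a a.2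
  obtain ⟨g, f, hdiv, heq⟩ := exists_normalized y hB3 ha _ g0 f0 rfl hg0 heq0
  set s : ↥(modularFunctionFieldFull N) :=
    Polynomial.aeval (jFull N) (g.map (Int.castRingHom ↥(GaloisRep.ratLocalizedAt ℓ))) with hs
  have hsL : (s : LaurentSeries ℚ) = evalAt (jqModC ℚ) g := evL_map_intCast N ℓ g
  refine ⟨s, Polynomial.aeval_mem_adjoin_singleton _ _, ?_, ?_⟩
  · rintro ⟨v, hv, hsv⟩
    have hmem : (s : LaurentSeries ℚ) ∈ igV ℓ := by
      rw [hsL, evalAt_eq_coeffMap]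
      exact coeffMap_int_mem_igV ℓ _
    have h0 : igRed ℓ ⟨(s : LaurentSeries ℚ), hmem⟩ = 0 :=
      igRed_eq_zero_of_eq_mul ℓ hmem hv hsv
    have h1 : igRed ℓ ⟨(s : LaurentSeries ℚ), hmem⟩ =
        coeffMap (Int.castRingHom (ZMod ℓ)) (evalAt (jqModC ℤ) g) := by
      rw [← igRed_coeffMap_int ℓ]
      congr 1
      exact Subtype.ext (by rw [hsL, evalAt_eq_coeffMap])
    rw [h1, ← evalAt_eq_coeffMap, ← aeval_map_intCast_eq] at h0
    exact map_ne_zero_of_not_C_dvd g hdiv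
      (P2MW.S_ModularCurve_coeff_jqModC_neg_one.ModularCurve.CharLRows.aeval_jqModC_eq_zero
        (ZMod ℓ) h0)
  · apply mem_chartAlgFin_of_isIntegralElem
    have hcoe : ((s * a : ↥(modularFunctionFieldFull N)) : LaurentSeries ℚ) =
        ∑ i, evalAt (jqModC ℚ) (f i) * coeffMap (Int.castRingHom ℚ) (y i) := by
      rw [← heq, ← hsL]
      rfl
    rw [hcoe]
    refine Finset.sum_induction _ (fun z => (evL N ℓ).IsIntegralElem z)
      (fun _ _ hx hy => RingHom.IsIntegralElem.add _ hx hy) (evL N ℓ).isIntegralElem_zero ?_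
    intro i _
    refine RingHom.IsIntegralElem.mul _ ?_ ?_
    · rw [← evL_map_intCast N ℓ (f i)]
      exact (evL N ℓ).isIntegralElem_map
    · obtain ⟨c, P, hc, hlead, hP⟩ := hB1 i
      exact isIntegralElem_of_B1 N ℓ hc hlead hP

end Integrality

end Fermat.Agent.S28.H865
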