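/-
S28 helper (helper865): the keystone of the valuation layer [V],
`BasisData N ℓ → ChartReductions N ℓ`.
-/
import Mathlib
import Fermat.Agent.S28.Defs
import Fermat.Agent.S28.Basis
import Fermat.Agent.S28.Spine
import Fermat.Agent.S28.H865Charts
import Fermat.Agent.S28.H865Key
import Fermat.Agent.S28.H865Basis

set_option autoImplicit false

noncomputable section

namespace Fermat.Agent.S28.H865

open ModularCurve ModularCurve.IgusaScheme Fermat.Agent.S28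

variable (N : ℕ) [NeZero N] (ℓ : ℕ) [Fact ℓ.Prime]

/-- **(HC) for the chart at infinity.** -/
theorem exists_mul_mem_chartAlgInf (h : BasisData N ℓ) (a : ↥(modularFunctionFieldFull N))
    (ha : (a : LaurentSeries ℚ) ∈ igV ℓ) :
    ∃ s : ↥(modularFunctionFieldFull N),
      s ∈ Algebra.adjoin ↥(GaloisRep.ratLocalizedAt ℓ)
        ({(jFull N)⁻¹} : Set ↥(modularFunctionFieldFull N)) ∧
      (¬ ∃ v ∈ igV ℓ, (s : LaurentSeries ℚ) = ((ℓ : ℕ) : LaurentSeries ℚ) * v) ∧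
      s * a ∈ chartAlgInf N ℓ := by
  obtain ⟨s, hs, hsv, hsa⟩ := exists_mul_mem_chartAlgFin N ℓ h a ha
  have hu0 : (jFull N)⁻¹ ≠ 0 := inv_ne_zero (jFull_ne_zero N)
  have hsub : ({jFull N} : Set ↥(modularFunctionFieldFull N)) ⊆
      insert ((jFull N)⁻¹)⁻¹ {(jFull N)⁻¹} := by
    rw [inv_inv]
    exact Set.singleton_subset_iff.mpr (Set.mem_insert _ _)
  obtain ⟨n1, hn1⟩ := exists_pow_mul_mem_chartAlg (N := N) (ℓ := ℓ)
    (Set.mem_singleton ((jFull N)⁻¹)) hu0 (chartAlg_mono N ℓ hsub hsa)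
  obtain ⟨n2, hn2⟩ := exists_pow_mul_mem_adjoin (N := N) (ℓ := ℓ)
    (Set.mem_singleton ((jFull N)⁻¹)) hu0 (Algebra.adjoin_mono hsub hs)
  have huA : (jFull N)⁻¹ ∈ Algebra.adjoin ↥(GaloisRep.ratLocalizedAt ℓ)
      ({(jFull N)⁻¹} : Set ↥(modularFunctionFieldFull N)) :=
    Algebra.subset_adjoin (Set.mem_singleton _)
  refine ⟨(jFull N)⁻¹ ^ n1 * ((jFull N)⁻¹ ^ n2 * s), ?_, ?_, ?_⟩
  · exact mul_mem (pow_mem huA n1) hn2
  · rintro ⟨v, hv, hsv'⟩
    apply hsv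
    refine ⟨jq ^ (n1 + n2) * v, (igV ℓ).mul_mem ((igV ℓ).pow_mem (jq_mem_igV ℓ) _) hv, ?_⟩
    have hj : (jq : LaurentSeries ℚ) ≠ 0 := jq_ne_zero
    have h1 : ((((jFull N)⁻¹ ^ n1 * ((jFull N)⁻¹ ^ n2 * s) : ↥(modularFunctionFieldFull N))) :
        LaurentSeries ℚ) = (jq⁻¹) ^ n1 * ((jq⁻¹) ^ n2 * (s : LaurentSeries ℚ)) := rfl
    rw [h1] at hsv'
    have h2 : (s : LaurentSeries ℚ) =
        jq ^ (n1 + n2) * ((jq⁻¹) ^ n1 * ((jq⁻¹) ^ n2 * (s : LaurentSeries ℚ))) := by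
      rw [pow_add, inv_pow, inv_pow]
      field_simp
    rw [h2, hsv']
    ring
  · have h1 : (jFull N)⁻¹ ^ n1 * ((jFull N)⁻¹ ^ n2 * s) * a =
        (jFull N)⁻¹ ^ n2 * ((jFull N)⁻¹ ^ n1 * (s * a)) := by ring
    rw [h1]
    exact mul_mem (pow_mem (subset_chartAlg N ℓ _ (Set.mem_singleton _)) n2) hn1

/-- The kernel statement on a chart `{t}`, from (HC) and the key integrality step. -/
theorem chartRed_ker_le {t : ↥(modularFunctionFieldFull N)}
    (hS : ({t} : Set ↥(modularFunctionFieldFull N)) ⊆ {jFull N, (jFull N)⁻¹})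
    (ht : Transcendental ↥(GaloisRep.ratLocalizedAt ℓ) t)
    (hHC : ∀ a : ↥(modularFunctionFieldFull N), (a : LaurentSeries ℚ) ∈ igV ℓ →
      ∃ s : ↥(modularFunctionFieldFull N),
        s ∈ Algebra.adjoin ↥(GaloisRep.ratLocalizedAt ℓ)
          ({t} : Set ↥(modularFunctionFieldFull N)) ∧
        (¬ ∃ v ∈ igV ℓ, (s : LaurentSeries ℚ) = ((ℓ : ℕ) : LaurentSeries ℚ) * v) ∧
        s * a ∈ chartAlg N ℓ {t})
    (x : ↥(chartAlg N ℓ {t})) (hx : chartRed hS x = 0) :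
    ∃ y : ↥(chartAlg N ℓ {t}), x = ((ℓ : ℕ) : ↥(chartAlg N ℓ {t})) * y := by
  rw [chartRed_apply] at hx
  obtain ⟨v, hv, hxv⟩ := exists_eq_mul_of_igRed_eq_zero ℓ _ hx
  have hℓF : ((ℓ : ℕ) : ↥(modularFunctionFieldFull N)) ≠ 0 := by
    exact_mod_cast (Fact.out : ℓ.Prime).ne_zero
  have hℓL := natCast_laurent_rat_ne_zero ℓ
  set a : ↥(modularFunctionFieldFull N) :=
    ((ℓ : ℕ) : ↥(modularFunctionFieldFull N))⁻¹ * (x : ↥(modularFunctionFieldFull N)) with ha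
  have hxa : (x : ↥(modularFunctionFieldFull N)) =
      ((ℓ : ℕ) : ↥(modularFunctionFieldFull N)) * a := by
    rw [ha, ← mul_assoc, mul_inv_cancel₀ hℓF, one_mul]
  have haL : (a : LaurentSeries ℚ) = v := by
    have h1 : (((x : ↥(modularFunctionFieldFull N)) : LaurentSeries ℚ)) =
        ((ℓ : ℕ) : LaurentSeries ℚ) * (a : LaurentSeries ℚ) := by
      conv_lhs => rw [hxa]
      rfl
    rw [hxv] at h1
    exact (mul_left_cancel₀ hℓL h1).symm
  have haV : (a : LaurentSeries ℚ) ∈ igV ℓ := haL ▸ hv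
  obtain ⟨s, hs, hsv, hsa⟩ := hHC a haV
  have hmem : a ∈ chartAlg N ℓ {t} := by
    refine mem_chartAlg_of_mul_mem ht hs ?_ ?_ hsa
    · rintro ⟨s', hs', hss'⟩
      apply hsv
      refine ⟨(s' : LaurentSeries ℚ), coe_mem_igV_of_mem_adjoin hS hs', ?_⟩
      rw [hss']
      rfl
    · rw [← hxa]
      exact x.2
  refine ⟨⟨a, hmem⟩, Subtype.ext ?_⟩
  rw [hxa]
  rfl

/-- **Keystone of the valuation layer [V].** -/
theorem chartReductions_of_basisData (h : BasisData N ℓ) : ChartReductions N ℓ where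
  fin := ⟨chartRedFin N ℓ, fun x hx =>
    chartRed_ker_le N ℓ (sFin_subset N) (transcendental_jFull N ℓ)
      (exists_mul_mem_chartAlgFin N ℓ h) x hx⟩
  inf := ⟨chartRedInf N ℓ, fun x hx =>
    chartRed_ker_le N ℓ (sInf_subset N) (transcendental_jFull_inv N ℓ)
      (exists_mul_mem_chartAlgInf N ℓ h) x hx⟩
  mid := ⟨chartRedMid N ℓ⟩

end Fermat.Agent.S28.H865
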